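/-
S19 algebraic shell (helper64), brick D1: Galois descent of linear independence.

`F ⊆ K` fields with `K^{Aut(K/F)} = F` (e.g. `K/F` Galois), `M` a set on which `Aut(K/F)` acts.
A family of functions `v i : M → K` which are equivariant (`v i (σ • m) = σ (v i m)`) and linearly
independent over `F` is linearly independent over `K`.  (Artin's minimal-relation argument.)
-/
import Mathlib

set_option autoImplicit false

namespace Fermat.Agent.S19.Shell64

section Descent

variable {F K M : Type*} [Field F] [Field K] [Algebra F K] [MulAction (K ≃ₐ[F] K) M]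

/-- a function `M → K` is *equivariant* if it intertwines the action on `M` with the Galois action
on `K`. -/
def IsEquivariantFun (F : Type*) {K M : Type*} [Field F] [Field K] [Algebra F K]
    [MulAction (K ≃ₐ[F] K) M] (f : M → K) : Prop :=
  ∀ (σ : K ≃ₐ[F] K) (m : M), f (σ • m) = σ (f m)

omit [MulAction (K ≃ₐ[F] K) M] in
/-- the fixed-field hypothesis, in the form we use it. -/
def FixedFieldEqBase (F K : Type*) [Field F] [Field K] [Algebra F K] : Prop :=
  ∀ x : K, (∀ σ : K ≃ₐ[F] K, σ x = x) → x ∈ Set.range (algebraMap F K)

theorem fixedFieldEqBase_of_isGalois [IsGalois F K] : FixedFieldEqBase F K := fun x hx =>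
  (InfiniteGalois.mem_range_algebraMap_iff_fixed (k := F) (K := K) x).mpr hx

/-- applying `σ` to the coefficients of a vanishing `K`-combination of equivariant functions gives a
vanishing combination. -/
theorem sum_map_smul_eq_zero {ι : Type*} {v : ι → M → K} (hv : ∀ i, IsEquivariantFun F (v i))
    (s : Finset ι) (c : ι → K) (h : ∑ i ∈ s, c i • v i = 0) (σ : K ≃ₐ[F] K) :
    ∑ i ∈ s, σ (c i) • v i = 0 := by
  funext m
  have h1 := congrFun h (σ⁻¹ • m)
  simp only [Finset.sum_apply, Pi.smul_apply, smul_eq_mul, Pi.zero_apply] at h1 ⊢
  have h2 := congrArg σ h1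
  rw [map_sum, map_zero] at h2
  rw [← h2]
  refine Finset.sum_congr rfl fun i _ => ?_
  rw [map_mul, ← hv i σ (σ⁻¹ • m), smul_inv_smul]

/-- **Galois descent of linear independence.** -/
theorem linearIndependent_of_equivariant (hfix : FixedFieldEqBase F K) {ι : Type*}
    {v : ι → M → K} (hv : ∀ i, IsEquivariantFun F (v i)) (hF : LinearIndependent F v) :
    LinearIndependent K v := by
  classical
  rw [linearIndependent_iff']
  intro s
  induction s using Finset.induction_on with
  | empty => intro c _ i hi; simp at hi
  | insert a t hat ih =>
    intro c hc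
    by_cases hca : c a = 0
    · have hc' : ∑ i ∈ t, c i • v i = 0 := by
        rw [Finset.sum_insert hat, hca, zero_smul, zero_add] at hc
        exact hc
      intro i hi
      rcases Finset.mem_insert.mp hi with rfl | hit
      · exact hca
      · exact ih c hc' i hit
    · exfalso
      -- normalise
      set c' : ι → K := fun i => (c a)⁻¹ * c i with hc'def
      have hc'a : c' a = 1 := by simp [hc'def, hca]
      have hc' : ∑ i ∈ insert a t, c' i • v i = 0 := by
        have : ∑ i ∈ insert a t, c' i • v i = (c a)⁻¹ • ∑ i ∈ insert a t, c i • v i := by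
          rw [Finset.smul_sum]
          refine Finset.sum_congr rfl fun i _ => ?_
          rw [hc'def, mul_smul]
        rw [this, hc, smul_zero]
      -- all coefficients are Galois-invariant
      have hinv : ∀ σ : K ≃ₐ[F] K, ∀ i ∈ t, σ (c' i) = c' i := by
        intro σ
        have h1 := sum_map_smul_eq_zero hv (insert a t) c' hc' σ
        have h2 : ∑ i ∈ t, (σ (c' i) - c' i) • v i = 0 := by
          have h3 : ∑ i ∈ insert a t, (σ (c' i) - c' i) • v i = 0 := by
            simp only [sub_smul, Finset.sum_sub_distrib, h1, hc', sub_zero]
          rw [Finset.sum_insert hat, hc'a, map_one, sub_self, zero_smul, zero_add] at h3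
          exact h3
        intro i hi
        exact sub_eq_zero.mp (ih _ h2 i hi)
      have hinv' : ∀ i ∈ insert a t, ∃ d : F, algebraMap F K d = c' i := by
        intro i hi
        rcases Finset.mem_insert.mp hi with rfl | hit
        · exact ⟨1, by rw [map_one, hc'a]⟩
        · exact hfix (c' i) fun σ => hinv σ i hit
      choose! d hd using hinv'
      have hrel : ∑ i ∈ insert a t, d i • v i = 0 := by
        rw [← hc']
        refine Finset.sum_congr rfl fun i hi => ?_
        rw [← hd i hi, algebraMap_smul]
      have hda := (linearIndependent_iff'.mp hF) (insert a t) d hrel a (Finset.mem_insert_self a t)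
      have : algebraMap F K (d a) = 1 := by rw [hd a (Finset.mem_insert_self a t), hc'a]
      rw [hda, map_zero] at this
      exact zero_ne_one this

end Descent

end Fermat.Agent.S19.Shell64
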