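/-
S19 algebraic shell (helper64), brick D2: function algebras, the evaluation map
`A ⊗[R] B → (X × Y → K)` and its injectivity.
-/
import Mathlib

set_option autoImplicit false

open scoped TensorProduct

namespace Fermat.Agent.S19.Shell64

section PullAlg

/-- pull back `K`-valued functions along a map, as an `R`-algebra homomorphism. -/
def pullAlg (R K : Type*) [CommSemiring R] [CommSemiring K] [Algebra R K] {X Y : Type*}
    (f : X → Y) : (Y → K) →ₐ[R] (X → K) where
  toFun g := g ∘ f
  map_one' := rfl
  map_mul' _ _ := rfl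
  map_zero' := rfl
  map_add' _ _ := rfl
  commutes' _ := rfl

@[simp]
theorem pullAlg_apply (R K : Type*) [CommSemiring R] [CommSemiring K] [Algebra R K] {X Y : Type*}
    (f : X → Y) (g : Y → K) (x : X) : pullAlg R K f g x = g (f x) := rfl

theorem pullAlg_comp_pullAlg (R K : Type*) [CommSemiring R] [CommSemiring K] [Algebra R K]
    {X Y Z : Type*} (f : X → Y) (g : Y → Z) :
    (pullAlg R K f).comp (pullAlg R K g) = pullAlg R K (g ∘ f) := rfl

end PullAlg

section ProdEval

variable {R K : Type*} [CommRing R] [Field K] [Algebra R K]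
variable {X Y A B : Type*} [CommRing A] [CommRing B] [Algebra R A] [Algebra R B]

/-- the evaluation map `A ⊗ B → Fun(X × Y)`, `a ⊗ b ↦ ((x,y) ↦ φ a x * ψ b y)`. -/
noncomputable def prodEval (φ : A →ₐ[R] (X → K)) (ψ : B →ₐ[R] (Y → K)) :
    A ⊗[R] B →ₐ[R] (X × Y → K) :=
  Algebra.TensorProduct.productMap ((pullAlg R K Prod.fst).comp φ) ((pullAlg R K Prod.snd).comp ψ)

@[simp]
theorem prodEval_tmul (φ : A →ₐ[R] (X → K)) (ψ : B →ₐ[R] (Y → K)) (a : A) (b : B) (p : X × Y) :
    prodEval φ ψ (a ⊗ₜ[R] b) p = φ a p.1 * ψ b p.2 := rfl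

/-- **Injectivity of the evaluation map**: if `A` has a basis whose image under `φ` is linearly
independent over `K`, and `ψ` is injective, then `prodEval φ ψ` is injective. -/
theorem prodEval_injective {I : Type*} (b : Module.Basis I R A) (φ : A →ₐ[R] (X → K))
    (ψ : B →ₐ[R] (Y → K)) (hφ : LinearIndependent K (fun i => φ (b i)))
    (hψ : Function.Injective ψ) : Function.Injective (prodEval φ ψ) := by
  classical
  rw [injective_iff_map_eq_zero]
  intro t ht
  obtain ⟨c, rfl⟩ := TensorProduct.eq_repr_basis_left b t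
  have hc : c = 0 := by
    ext i
    rw [Finsupp.zero_apply]
    apply hψ
    rw [map_zero]
    funext y
    have h1 : ∑ j ∈ c.support, (ψ (c j) y) • (fun x => φ (b j) x) = 0 := by
      funext x
      have h2 := congrFun ht (x, y)
      rw [Finsupp.sum, map_sum] at h2
      simp only [Finset.sum_apply, prodEval_tmul, Pi.zero_apply] at h2
      simp only [Finset.sum_apply, Pi.smul_apply, smul_eq_mul, Pi.zero_apply]
      rw [← h2]
      exact Finset.sum_congr rfl fun j _ => mul_comm _ _
    by_cases hi : i ∈ c.support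
    · exact (linearIndependent_iff'.mp hφ) c.support (fun j => ψ (c j) y) h1 i hi
    · rw [Finsupp.notMem_support_iff.mp hi, map_zero]
  rw [hc]
  simp

end ProdEval

end Fermat.Agent.S19.Shell64
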