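/-
S19 algebraic shell (helper64), brick D4: the Hopf algebra structure on a finite free `R`-algebra `H`
of `K`-valued functions on an abelian group `M` that is closed under translation-comultiplication.

All (co)axioms are inherited through the injective evaluation maps
`H ⊗ H → Fun(M × M)`, `H ⊗ (H ⊗ H) → Fun(M × (M × M))`.
-/
import Mathlib
import Fermat.Agent.S19.Shell64.TensorInj

set_option autoImplicit false

open scoped TensorProduct

namespace Fermat.Agent.S19.Shell64

section LiftRange

variable {R A B C : Type*} [CommRing R] [CommRing A] [CommRing B] [CommRing C]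
  [Algebra R A] [Algebra R B] [Algebra R C]

/-- factor `f` through an injective `ι` whose range contains the range of `f`. -/
noncomputable def liftRange (ι : B →ₐ[R] C) (hι : Function.Injective ι) (f : A →ₐ[R] C)
    (hf : ∀ a, f a ∈ ι.range) : A →ₐ[R] B :=
  ((AlgEquiv.ofInjective ι hι).symm : ι.range →ₐ[R] B).comp (f.codRestrict ι.range hf)

theorem liftRange_spec (ι : B →ₐ[R] C) (hι : Function.Injective ι) (f : A →ₐ[R] C)
    (hf : ∀ a, f a ∈ ι.range) (a : A) : ι (liftRange ι hι f hf a) = f a := by
  have h1 : ι ((AlgEquiv.ofInjective ι hι).symm (f.codRestrict ι.range hf a)) =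
      ((AlgEquiv.ofInjective ι hι) ((AlgEquiv.ofInjective ι hι).symm
        (f.codRestrict ι.range hf a)) : C) := rfl
  rw [AlgEquiv.apply_symm_apply] at h1
  exact h1

end LiftRange

/-- the data of a "function Hopf order": a commutative `R`-algebra `H` realised (injectively) as an
algebra of `K`-valued functions on an abelian group `M`, free with a basis that stays linearly
independent over `K`, and closed under comultiplication, counit and antipode of `Fun(M)`. -/
structure HopfFunData (R K M H I : Type*) [CommRing R] [Field K] [Algebra R K] [AddCommGroup M]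
    [CommRing H] [Algebra R H] where
  /-- the realisation as functions -/
  φ : H →ₐ[R] (M → K)
  φ_inj : Function.Injective φ
  /-- a basis -/
  b : Module.Basis I R H
  b_indep : LinearIndependent K (fun i => φ (b i))
  algebraMap_inj : Function.Injective (algebraMap R K)
  mul_mem : ∀ h : H, ∃ t : H ⊗[R] H, ∀ m m' : M, prodEval φ φ t (m, m') = φ h (m + m')
  one_mem : ∀ h : H, ∃ r : R, algebraMap R K r = φ h 0
  inv_mem : ∀ h : H, ∃ h' : H, ∀ m : M, φ h' m = φ h (-m)

namespace HopfFunData

variable {R K M H I : Type*} [CommRing R] [Field K] [Algebra R K] [AddCommGroup M]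
  [CommRing H] [Algebra R H] (D : HopfFunData R K M H I)

/-- evaluation on `M × M`. -/
noncomputable def μ₂ : H ⊗[R] H →ₐ[R] (M × M → K) := prodEval D.φ D.φ

theorem μ₂_inj : Function.Injective D.μ₂ :=
  prodEval_injective D.b D.φ D.φ D.b_indep D.φ_inj

@[simp]
theorem μ₂_tmul (a b : H) (p : M × M) : D.μ₂ (a ⊗ₜ[R] b) p = D.φ a p.1 * D.φ b p.2 := rfl

/-- evaluation on `M × (M × M)`. -/
noncomputable def μ₃ : H ⊗[R] (H ⊗[R] H) →ₐ[R] (M × (M × M) → K) := prodEval D.φ D.μ₂

theorem μ₃_inj : Function.Injective D.μ₃ :=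
  prodEval_injective D.b D.φ D.μ₂ D.b_indep D.μ₂_inj

@[simp]
theorem μ₃_tmul (a : H) (t : H ⊗[R] H) (p : M × (M × M)) :
    D.μ₃ (a ⊗ₜ[R] t) p = D.φ a p.1 * D.μ₂ t p.2 := rfl

/-- evaluation on `(M × M) × M`. -/
noncomputable def μ₃' : (H ⊗[R] H) ⊗[R] H →ₐ[R] ((M × M) × M → K) := prodEval D.μ₂ D.φ

@[simp]
theorem μ₃'_tmul (t : H ⊗[R] H) (a : H) (p : (M × M) × M) :
    D.μ₃' (t ⊗ₜ[R] a) p = D.μ₂ t p.1 * D.φ a p.2 := rfl

/-- the comultiplication. -/
noncomputable def comulAlg : H →ₐ[R] H ⊗[R] H :=
  liftRange D.μ₂ D.μ₂_inj ((pullAlg R K (fun p : M × M => p.1 + p.2)).comp D.φ) (by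
    intro h
    obtain ⟨t, ht⟩ := D.mul_mem h
    exact ⟨t, funext fun p => ht p.1 p.2⟩)

@[simp]
theorem μ₂_comulAlg (h : H) (p : M × M) : D.μ₂ (D.comulAlg h) p = D.φ h (p.1 + p.2) :=
  congrFun (liftRange_spec D.μ₂ D.μ₂_inj _ _ h) p

/-- the counit. -/
noncomputable def counitAlg : H →ₐ[R] R :=
  liftRange (Algebra.ofId R K) D.algebraMap_inj
    ((Pi.evalAlgHom R (fun _ : M => K) 0).comp D.φ) (by
    intro h
    obtain ⟨r, hr⟩ := D.one_mem h
    exact ⟨r, hr⟩)

@[simp]
theorem algebraMap_counitAlg (h : H) : algebraMap R K (D.counitAlg h) = D.φ h 0 :=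
  liftRange_spec (Algebra.ofId R K) D.algebraMap_inj _ _ h

/-- the antipode. -/
noncomputable def antipodeAlg : H →ₐ[R] H :=
  liftRange D.φ D.φ_inj ((pullAlg R K (fun m : M => -m)).comp D.φ) (by
    intro h
    obtain ⟨h', hh'⟩ := D.inv_mem h
    exact ⟨h', funext fun m => hh' m⟩)

@[simp]
theorem φ_antipodeAlg (h : H) (m : M) : D.φ (D.antipodeAlg h) m = D.φ h (-m) :=
  congrFun (liftRange_spec D.φ D.φ_inj _ _ h) m

/-! ### computation of the structure maps through the evaluation maps -/

theorem μ₃_map_id_comul (t : H ⊗[R] H) (p : M × (M × M)) :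
    D.μ₃ (Algebra.TensorProduct.map (AlgHom.id R H) D.comulAlg t) p =
      D.μ₂ t (p.1, p.2.1 + p.2.2) := by
  have h : D.μ₃.comp (Algebra.TensorProduct.map (AlgHom.id R H) D.comulAlg) =
      (pullAlg R K (fun p : M × (M × M) => (p.1, p.2.1 + p.2.2))).comp D.μ₂ := by
    apply Algebra.TensorProduct.ext'
    intro a b
    funext q
    simp
  exact congrFun (AlgHom.congr_fun h t) p

theorem μ₃_assoc (s : (H ⊗[R] H) ⊗[R] H) (p : M × (M × M)) :
    D.μ₃ (Algebra.TensorProduct.assoc R R R H H H s) p = D.μ₃' s ((p.1, p.2.1), p.2.2) := by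
  have h : D.μ₃.comp (Algebra.TensorProduct.assoc R R R H H H).toAlgHom =
      (pullAlg R K (fun p : M × (M × M) => ((p.1, p.2.1), p.2.2))).comp D.μ₃' := by
    apply Algebra.TensorProduct.ext'
    intro t c
    induction t using TensorProduct.induction_on with
    | zero => simp
    | tmul a b =>
      funext q
      simp [mul_assoc]
    | add x y hx hy => simp only [TensorProduct.add_tmul, map_add, hx, hy]
  exact congrFun (AlgHom.congr_fun h s) p

theorem μ₃'_map_comul_id (t : H ⊗[R] H) (q : (M × M) × M) :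
    D.μ₃' (Algebra.TensorProduct.map D.comulAlg (AlgHom.id R H) t) q =
      D.μ₂ t (q.1.1 + q.1.2, q.2) := by
  have h : D.μ₃'.comp (Algebra.TensorProduct.map D.comulAlg (AlgHom.id R H)) =
      (pullAlg R K (fun q : (M × M) × M => (q.1.1 + q.1.2, q.2))).comp D.μ₂ := by
    apply Algebra.TensorProduct.ext'
    intro a b
    funext q
    simp
  exact congrFun (AlgHom.congr_fun h t) q

theorem φ_lid_map_counit (t : H ⊗[R] H) (m : M) :
    D.φ (Algebra.TensorProduct.lid R H
      (Algebra.TensorProduct.map D.counitAlg (AlgHom.id R H) t)) m = D.μ₂ t (0, m) := by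
  have h : D.φ.comp ((Algebra.TensorProduct.lid R H).toAlgHom.comp
      (Algebra.TensorProduct.map D.counitAlg (AlgHom.id R H))) =
      (pullAlg R K (fun m : M => ((0 : M), m))).comp D.μ₂ := by
    apply Algebra.TensorProduct.ext'
    intro a b
    funext q
    simp [Algebra.smul_def]
  exact congrFun (AlgHom.congr_fun h t) m

theorem φ_rid_map_counit (t : H ⊗[R] H) (m : M) :
    D.φ (Algebra.TensorProduct.rid R R H
      (Algebra.TensorProduct.map (AlgHom.id R H) D.counitAlg t)) m = D.μ₂ t (m, 0) := by
  have h : D.φ.comp ((Algebra.TensorProduct.rid R R H).toAlgHom.comp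
      (Algebra.TensorProduct.map (AlgHom.id R H) D.counitAlg)) =
      (pullAlg R K (fun m : M => (m, (0 : M)))).comp D.μ₂ := by
    apply Algebra.TensorProduct.ext'
    intro a b
    funext q
    simp [Algebra.smul_def, mul_comm]
  exact congrFun (AlgHom.congr_fun h t) m

theorem φ_lift_antipode_id (t : H ⊗[R] H) (m : M) :
    D.φ (Algebra.TensorProduct.lift D.antipodeAlg (AlgHom.id R H) (fun _ _ => Commute.all _ _) t) m
      = D.μ₂ t (-m, m) := by
  have h : D.φ.comp (Algebra.TensorProduct.lift D.antipodeAlg (AlgHom.id R H)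
      (fun _ _ => Commute.all _ _)) =
      (pullAlg R K (fun m : M => (-m, m))).comp D.μ₂ := by
    apply Algebra.TensorProduct.ext'
    intro a b
    funext q
    simp
  exact congrFun (AlgHom.congr_fun h t) m

theorem φ_lift_id_antipode (t : H ⊗[R] H) (m : M) :
    D.φ (Algebra.TensorProduct.lift (AlgHom.id R H) D.antipodeAlg (fun _ _ => Commute.all _ _) t) m
      = D.μ₂ t (m, -m) := by
  have h : D.φ.comp (Algebra.TensorProduct.lift (AlgHom.id R H) D.antipodeAlg
      (fun _ _ => Commute.all _ _)) =
      (pullAlg R K (fun m : M => (m, -m))).comp D.μ₂ := by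
    apply Algebra.TensorProduct.ext'
    intro a b
    funext q
    simp
  exact congrFun (AlgHom.congr_fun h t) m

theorem μ₂_comm (t : H ⊗[R] H) (p : M × M) :
    D.μ₂ (Algebra.TensorProduct.comm R H H t) p = D.μ₂ t (p.2, p.1) := by
  have h : D.μ₂.comp (Algebra.TensorProduct.comm R H H).toAlgHom =
      (pullAlg R K (fun p : M × M => (p.2, p.1))).comp D.μ₂ := by
    apply Algebra.TensorProduct.ext'
    intro a b
    funext q
    simp [mul_comm]
  exact congrFun (AlgHom.congr_fun h t) p

/-! ### the structures -/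

/-- the bialgebra structure. -/
@[reducible]
noncomputable def bialgebra : Bialgebra R H :=
  Bialgebra.ofAlgHom D.comulAlg D.counitAlg
    (by
      apply AlgHom.ext
      intro h
      apply D.μ₃_inj
      funext p
      simp only [AlgHom.comp_apply]
      refine (D.μ₃_assoc _ p).trans ?_
      rw [μ₃'_map_comul_id, μ₃_map_id_comul]
      simp [add_assoc])
    (by
      apply AlgHom.ext
      intro h
      apply (Algebra.TensorProduct.lid R H).injective
      apply D.φ_inj
      funext m
      simp only [AlgHom.comp_apply]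
      rw [φ_lid_map_counit]
      simp)
    (by
      apply AlgHom.ext
      intro h
      apply (Algebra.TensorProduct.rid R R H).injective
      apply D.φ_inj
      funext m
      simp only [AlgHom.comp_apply]
      rw [φ_rid_map_counit]
      simp)

theorem comulAlgHom_eq : @Bialgebra.comulAlgHom R H _ _ D.bialgebra = D.comulAlg :=
  AlgHom.ext fun _ => rfl

theorem counitAlgHom_eq : @Bialgebra.counitAlgHom R H _ _ D.bialgebra = D.counitAlg :=
  AlgHom.ext fun _ => rfl

/-- the Hopf algebra structure. -/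
@[reducible]
noncomputable def hopfAlgebra : HopfAlgebra R H :=
  letI := D.bialgebra
  HopfAlgebra.ofAlgHom D.antipodeAlg
    (by
      rw [comulAlgHom_eq, counitAlgHom_eq]
      apply AlgHom.ext
      intro h
      apply D.φ_inj
      funext m
      simp only [AlgHom.comp_apply]
      rw [φ_lift_antipode_id]
      simp)
    (by
      rw [comulAlgHom_eq, counitAlgHom_eq]
      apply AlgHom.ext
      intro h
      apply D.φ_inj
      funext m
      simp only [AlgHom.comp_apply]
      rw [φ_lift_id_antipode]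
      simp)

theorem isCocomm : @Coalgebra.IsCocomm R H _ _ _ D.bialgebra.toCoalgebra := by
  let _ := D.bialgebra
  refine ⟨?_⟩
  apply LinearMap.ext
  intro h
  apply D.μ₂_inj
  funext p
  have h1 : (TensorProduct.comm R H H) (Coalgebra.comul h) =
      Algebra.TensorProduct.comm R H H (D.comulAlg h) := rfl
  have h2 : (Coalgebra.comul h : H ⊗[R] H) = D.comulAlg h := rfl
  rw [LinearMap.comp_apply, LinearEquiv.coe_coe, h1, h2, μ₂_comm]
  simp [add_comm]

end HopfFunData

end Fermat.Agent.S19.Shell64
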