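/-
S19 algebraic shell (helper64), brick D3: the `K`-points of a finite free `R`-algebra of functions
on a finite set `M` are exactly the evaluations at the points of `M`.
-/
import Mathlib

set_option autoImplicit false

namespace Fermat.Agent.S19.Shell64

section Points

variable {R K M H I : Type*} [CommRing R] [Field K] [Algebra R K] [CommRing H] [Algebra R H]

/-- evaluation at a point of `M`. -/
def evalPt (φ : H →ₐ[R] (M → K)) (m : M) : H →ₐ[R] K :=
  (Pi.evalAlgHom R (fun _ : M => K) m).comp φ

@[simp]
theorem evalPt_apply (φ : H →ₐ[R] (M → K)) (m : M) (h : H) : evalPt φ m h = φ h m := rfl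

theorem evalPt_injective (φ : H →ₐ[R] (M → K))
    (hsep : ∀ m m' : M, m ≠ m' → ∃ h : H, φ h m ≠ φ h m') : Function.Injective (evalPt φ) := by
  intro m m' hmm
  by_contra hne
  obtain ⟨h, hh⟩ := hsep m m' hne
  exact hh (by simpa using AlgHom.congr_fun hmm h)

/-- a family of pairwise distinct `R`-algebra homomorphisms `H → K`, evaluated on a basis of `H`,
is linearly independent over `K`. -/
theorem linearIndependent_algHom_basis {J : Type*} (b : Module.Basis I R H)
    (g : J → (H →ₐ[R] K)) (hg : Function.Injective g) :
    LinearIndependent K (fun (o : J) (i : I) => g o (b i)) := by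
  classical
  have hmon : LinearIndependent K (fun o : J => ((g o : H →* K) : H → K)) := by
    have h1 := linearIndependent_monoidHom H K
    refine h1.comp (fun o : J => ((g o : H →ₐ[R] K) : H →* K)) ?_
    intro o o' hoo'
    apply hg
    ext h
    exact DFunLike.congr_fun hoo' h
  rw [linearIndependent_iff'] at hmon ⊢
  intro s c hc o ho
  refine hmon s c ?_ o ho
  -- the `R`-linear map `L = ∑ c o • g o` vanishes on the basis
  set L : H →ₗ[R] K := ∑ o ∈ s, c o • (g o).toLinearMap with hL
  have hLb : ∀ i, L (b i) = 0 := by
    intro i
    have := congrFun hc i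
    simpa [hL, LinearMap.sum_apply] using this
  have hL0 : L = 0 := b.ext fun i => by rw [hLb i, LinearMap.zero_apply]
  funext h
  have := LinearMap.congr_fun hL0 h
  simpa [hL, LinearMap.sum_apply] using this

/-- an `R`-algebra with a finite basis has only finitely many `K`-points. -/
theorem finite_algHom_of_basis [Finite I] (b : Module.Basis I R H) : Finite (H →ₐ[R] K) := by
  cases nonempty_fintype I
  exact (linearIndependent_algHom_basis (K := K) b id Function.injective_id).finite_of_isNoetherian

/-- a set whose points are separated by a finite free `R`-algebra of functions is finite. -/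
theorem finite_of_separates [Finite I] (φ : H →ₐ[R] (M → K)) (b : Module.Basis I R H)
    (hsep : ∀ m m' : M, m ≠ m' → ∃ h : H, φ h m ≠ φ h m') : Finite M :=
  haveI := finite_algHom_of_basis (K := K) b
  Finite.of_injective (evalPt φ) (evalPt_injective φ hsep)

/-- **the points are the evaluations.** -/
theorem evalPt_bijective [Finite M] [Finite I] (φ : H →ₐ[R] (M → K)) (b : Module.Basis I R H)
    (hb : LinearIndependent K (fun i => φ (b i)))
    (hsep : ∀ m m' : M, m ≠ m' → ∃ h : H, φ h m ≠ φ h m') : Function.Bijective (evalPt φ) := by
  classical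
  cases nonempty_fintype M
  cases nonempty_fintype I
  refine ⟨evalPt_injective φ hsep, ?_⟩
  by_contra hsurj
  rw [Function.Surjective] at hsurj
  push Not at hsurj
  obtain ⟨χ, hχ⟩ := hsurj
  let g : Option M → (H →ₐ[R] K) := fun o => o.elim χ (evalPt φ)
  have hg : Function.Injective g := by
    rintro (_ | m) (_ | m') h
    · rfl
    · exact absurd h.symm (hχ m')
    · exact absurd h (hχ m)
    · exact congrArg some (evalPt_injective φ hsep h)
  have h1 := (linearIndependent_algHom_basis b g hg).fintype_card_le_finrank
  have h2 := hb.fintype_card_le_finrank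
  rw [Module.finrank_fintype_fun_eq_card] at h1 h2
  rw [Fintype.card_option] at h1
  omega

end Points

end Fermat.Agent.S19.Shell64
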