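/-
S19 algebraic shell (helper64): **a Hopf order in function form gives the frozen S19 conclusion.**

`R` a PID with fraction field `F`, `K ⊇ F` with `K^{Aut(K/F)} = F`, `M` a finite abelian group with an
action of `Aut(K/F)`.  An `R`-subalgebra `H` of `Fun(M, K)` consisting of equivariant functions,
finitely generated as an `R`-module, separating the points of `M` and closed under the
translation-comultiplication (`h(m+m') = ∑ aᵢ(m) bᵢ(m')` with `aᵢ, bᵢ ∈ H`), the counit (`h 0 ∈ R`)
and the antipode, is a finite flat cocommutative Hopf algebra over `R` whose `K`-points (with the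
convolution product) are `M`, equivariantly.
-/
import Mathlib
import Fermat.Agent.S19.Shell64.Descent
import Fermat.Agent.S19.Shell64.Points
import Fermat.Agent.S19.Shell64.HopfFun

set_option autoImplicit false

open scoped TensorProduct

namespace Fermat.Agent.S19.Shell64

section Main

variable {R F K M : Type} [CommRing R] [IsDomain R] [IsPrincipalIdealRing R] [Field F] [Field K]
  [Algebra R F] [IsFractionRing R F] [Algebra F K] [Algebra R K] [IsScalarTower R F K]
  [AddCommGroup M] [MulAction (K ≃ₐ[F] K) M]

include F in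
omit [IsDomain R] [IsPrincipalIdealRing R] [AddCommGroup M] [MulAction (K ≃ₐ[F] K) M] in
theorem algebraMap_injective_of_tower : Function.Injective (algebraMap R K) := by
  rw [IsScalarTower.algebraMap_eq R F K]
  exact (algebraMap F K).injective.comp (IsFractionRing.injective R F)

include F in
omit [IsPrincipalIdealRing R] [AddCommGroup M] [MulAction (K ≃ₐ[F] K) M] in
theorem isTorsionFree_fun : Module.IsTorsionFree R (M → K) := by
  refine ⟨fun r hr x y hxy => ?_⟩
  have hr0 : r ≠ 0 := hr.ne_zero
  have hrK : algebraMap R K r ≠ 0 := fun h =>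
    hr0 (algebraMap_injective_of_tower (F := F) (by rw [h, map_zero]))
  funext m
  have := congrFun hxy m
  simp only [Pi.smul_apply, Algebra.smul_def] at this
  exact mul_left_cancel₀ hrK this

omit [IsDomain R] [IsPrincipalIdealRing R] [AddCommGroup M] in
/-- a basis of `H` stays linearly independent over `K`. -/
theorem basis_linearIndependent (hfix : FixedFieldEqBase F K) (H : Subalgebra R (M → K))
    (hequiv : ∀ h ∈ H, IsEquivariantFun F h) {I : Type*} (b : Module.Basis I R H) :
    LinearIndependent K (fun i => ((b i : H) : M → K)) := by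
  refine linearIndependent_of_equivariant hfix (fun i => hequiv _ (b i).2) ?_
  rw [← LinearIndependent.iff_fractionRing R F]
  exact b.linearIndependent.map' H.val.toLinearMap
    (LinearMap.ker_eq_bot.mpr Subtype.val_injective)

/-- **The shell theorem.** -/
theorem exists_hopfAlgebra_of_functionOrder (hfix : FixedFieldEqBase F K)
    (H : Subalgebra R (M → K)) [Module.Finite R H]
    (hequiv : ∀ h ∈ H, IsEquivariantFun F h)
    (hsep : ∀ m m' : M, m ≠ m' → ∃ h ∈ H, h m ≠ h m')
    (hmul : ∀ h ∈ H, ∃ (n : ℕ) (a b : Fin n → H), ∀ m m' : M,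
      h (m + m') = ∑ i, (a i : M → K) m * (b i : M → K) m')
    (hone : ∀ h ∈ H, ∃ r : R, algebraMap R K r = h 0)
    (hinv : ∀ h ∈ H, (fun m => h (-m)) ∈ H) :
    ∃ (Hh : Type) (_ : CommRing Hh) (_ : HopfAlgebra R Hh),
      Module.Finite R Hh ∧ Module.Flat R Hh ∧ Coalgebra.IsCocomm R Hh ∧
      ∃ e : WithConv (Hh →ₐ[R] K) ≃ M,
        (∀ f g, e (f * g) = e f + e g) ∧
        ∀ (σ : K ≃ₐ[F] K) (f g : WithConv (Hh →ₐ[R] K)),
          (∀ h : Hh, g h = σ (f h)) → e g = σ • e f := by
  classical
  have : Module.IsTorsionFree R (M → K) := isTorsionFree_fun (F := F)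
  have : Module.IsTorsionFree R H :=
    Function.Injective.moduleIsTorsionFree (fun h : H => (h : M → K)) Subtype.val_injective
      (fun _ _ => rfl)
  have : Module.Free R H := Module.free_of_finite_type_torsion_free'
  let b := Module.Free.chooseBasis R H
  have hb : LinearIndependent K (fun i => ((b i : H) : M → K)) :=
    basis_linearIndependent hfix H hequiv b
  let D : HopfFunData R K M H (Module.Free.ChooseBasisIndex R H) :=
    { φ := H.val
      φ_inj := Subtype.val_injective
      b := b
      b_indep := hb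
      algebraMap_inj := algebraMap_injective_of_tower (F := F)
      mul_mem := by
        intro h
        obtain ⟨n, a, c, hac⟩ := hmul h h.2
        refine ⟨∑ i, a i ⊗ₜ[R] c i, fun m m' => ?_⟩
        rw [map_sum, Finset.sum_apply]
        simp only [prodEval_tmul]
        exact (hac m m').symm
      one_mem := fun h => hone h h.2
      inv_mem := fun h => ⟨⟨_, hinv h h.2⟩, fun _ => rfl⟩ }
  have hsep' : ∀ m m' : M, m ≠ m' → ∃ h : H, D.φ h m ≠ D.φ h m' := by
    intro m m' hmm
    obtain ⟨h, hh, hne⟩ := hsep m m' hmm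
    exact ⟨⟨h, hh⟩, hne⟩
  have : Finite M := finite_of_separates D.φ b hsep'
  have hbij : Function.Bijective (evalPt D.φ) := evalPt_bijective D.φ b hb hsep'
  let _ := D.hopfAlgebra
  refine ⟨H, inferInstance, D.hopfAlgebra, inferInstance, inferInstance, D.isCocomm, ?_⟩
  let e : WithConv (H →ₐ[R] K) ≃ M :=
    (WithConv.equiv _).trans (Equiv.ofBijective (evalPt D.φ) hbij).symm
  have he : ∀ (f : WithConv (H →ₐ[R] K)) (m : M), e f = m ↔ f.ofConv = evalPt D.φ m := by
    intro f m
    simp only [e, Equiv.trans_apply, WithConv.equiv_apply, Equiv.symm_apply_eq,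
      Equiv.ofBijective_apply]
  refine ⟨e, ?_, ?_⟩
  · intro f g
    rw [he]
    have hf := (he f (e f)).mp rfl
    have hg := (he g (e g)).mp rfl
    apply AlgHom.ext
    intro c
    have h1 : (f * g).ofConv c =
        Algebra.TensorProduct.lift f.ofConv g.ofConv (fun _ _ => Commute.all _ _)
          (D.comulAlg c) := AlgHom.convMul_apply f g c
    rw [h1, hf, hg]
    have h2 : ∀ t : H ⊗[R] H, Algebra.TensorProduct.lift (evalPt D.φ (e f)) (evalPt D.φ (e g))
        (fun _ _ => Commute.all _ _) t = D.μ₂ t (e f, e g) := by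
      intro t
      have h3 : Algebra.TensorProduct.lift (evalPt D.φ (e f)) (evalPt D.φ (e g))
          (fun _ _ => Commute.all _ _) =
          (Pi.evalAlgHom R (fun _ : M × M => K) (e f, e g)).comp D.μ₂ := by
        apply Algebra.TensorProduct.ext'
        intro a c
        simp
      exact AlgHom.congr_fun h3 t
    rw [h2]
    simp
  · intro σ f g hfg
    rw [he]
    have hf := (he f (e f)).mp rfl
    apply AlgHom.ext
    intro c
    have h1 : g.ofConv c = σ (f.ofConv c) := hfg c
    rw [h1, hf]
    simp only [evalPt_apply]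
    exact (hequiv _ c.2 σ (e f)).symm

end Main

section Derived

variable {R F K M : Type} [CommRing R] [IsDomain R] [IsPrincipalIdealRing R] [Field F] [Field K]
  [Algebra R F] [IsFractionRing R F] [Algebra F K] [Algebra R K] [IsScalarTower R F K]
  [AddCommGroup M] [DistribMulAction (K ≃ₐ[F] K) M]

/-- the counit condition is automatic: `h 0` is Galois-invariant and integral over `R`. -/
theorem eval_zero_mem_range (hfix : FixedFieldEqBase F K)
    (H : Subalgebra R (M → K)) [Module.Finite R H]
    (hequiv : ∀ h ∈ H, IsEquivariantFun F h) {h : M → K} (hh : h ∈ H) :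
    ∃ r : R, algebraMap R K r = h 0 := by
  have hfixed : ∀ σ : K ≃ₐ[F] K, σ (h 0) = h 0 := by
    intro σ
    have := hequiv h hh σ 0
    rw [smul_zero] at this
    exact this.symm
  obtain ⟨x, hx⟩ := hfix (h 0) hfixed
  have hint : IsIntegral R (⟨h, hh⟩ : H) := Algebra.IsIntegral.isIntegral _
  have hint0 : IsIntegral R (h 0) := hint.map (evalPt H.val 0)
  rw [← hx, isIntegral_algebraMap_iff (algebraMap F K).injective] at hint0
  obtain ⟨y, hy⟩ := IsIntegrallyClosed.isIntegral_iff.mp hint0
  exact ⟨y, by rw [IsScalarTower.algebraMap_apply R F K, hy, hx]⟩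

omit [IsDomain R] [IsPrincipalIdealRing R] [Field F] [Algebra R F] [IsFractionRing R F]
  [Algebra F K] [IsScalarTower R F K] [DistribMulAction (K ≃ₐ[F] K) M] in
/-- closure under `m ↦ k • m`. -/
theorem comp_nsmul_mem (H : Subalgebra R (M → K))
    (hone : ∀ h ∈ H, ∃ r : R, algebraMap R K r = h 0)
    (hmul : ∀ h ∈ H, ∃ (n : ℕ) (a b : Fin n → H), ∀ m m' : M,
      h (m + m') = ∑ i, (a i : M → K) m * (b i : M → K) m') (k : ℕ) :
    ∀ h ∈ H, (fun m : M => h (k • m)) ∈ H := by
  induction k with
  | zero =>
    intro h hh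
    obtain ⟨r, hr⟩ := hone h hh
    have : (fun m : M => h (0 • m)) = algebraMap R (M → K) r := by
      funext m
      rw [zero_smul, ← hr]
      rfl
    rw [this]
    exact H.algebraMap_mem r
  | succ k ih =>
    intro h hh
    obtain ⟨n, a, c, hac⟩ := hmul h hh
    have : (fun m : M => h ((k + 1) • m)) =
        ∑ i, (fun m : M => (a i : M → K) (k • m)) * (c i : M → K) := by
      funext m
      rw [succ_nsmul, hac, Finset.sum_apply]
      rfl
    rw [this]
    exact H.sum_mem fun i _ => H.mul_mem (ih _ (a i).2) (c i).2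

omit [IsDomain R] [IsPrincipalIdealRing R] [Field F] [Algebra R F] [IsFractionRing R F]
  [Algebra F K] [IsScalarTower R F K] [DistribMulAction (K ≃ₐ[F] K) M] in
/-- the antipode condition is automatic for a finite group. -/
theorem comp_neg_mem [Finite M] (H : Subalgebra R (M → K))
    (hone : ∀ h ∈ H, ∃ r : R, algebraMap R K r = h 0)
    (hmul : ∀ h ∈ H, ∃ (n : ℕ) (a b : Fin n → H), ∀ m m' : M,
      h (m + m') = ∑ i, (a i : M → K) m * (b i : M → K) m') {h : M → K} (hh : h ∈ H) :
    (fun m : M => h (-m)) ∈ H := by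
  have hN : 0 < Nat.card M := Nat.card_pos
  have hneg : ∀ m : M, -m = (Nat.card M - 1) • m := by
    intro m
    apply neg_eq_of_add_eq_zero_left
    have : (Nat.card M - 1) • m + m = (Nat.card M - 1 + 1) • m := (succ_nsmul m _).symm
    rw [this, Nat.sub_add_cancel hN]
    exact card_nsmul_eq_zero'
  have := comp_nsmul_mem H hone hmul (Nat.card M - 1) h hh
  simpa only [← hneg] using this

/-- **The shell theorem, minimal hypotheses**: equivariance, finiteness, separation and closure under
the translation-comultiplication suffice. -/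
theorem exists_hopfAlgebra_of_functionOrder' (hfix : FixedFieldEqBase F K)
    (H : Subalgebra R (M → K)) [Module.Finite R H]
    (hequiv : ∀ h ∈ H, IsEquivariantFun F h)
    (hsep : ∀ m m' : M, m ≠ m' → ∃ h ∈ H, h m ≠ h m')
    (hmul : ∀ h ∈ H, ∃ (n : ℕ) (a b : Fin n → H), ∀ m m' : M,
      h (m + m') = ∑ i, (a i : M → K) m * (b i : M → K) m') :
    ∃ (Hh : Type) (_ : CommRing Hh) (_ : HopfAlgebra R Hh),
      Module.Finite R Hh ∧ Module.Flat R Hh ∧ Coalgebra.IsCocomm R Hh ∧
      ∃ e : WithConv (Hh →ₐ[R] K) ≃ M,
        (∀ f g, e (f * g) = e f + e g) ∧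
        ∀ (σ : K ≃ₐ[F] K) (f g : WithConv (Hh →ₐ[R] K)),
          (∀ h : Hh, g h = σ (f h)) → e g = σ • e f := by
  have hone : ∀ h ∈ H, ∃ r : R, algebraMap R K r = h 0 :=
    fun h hh => eval_zero_mem_range hfix H hequiv hh
  have hfin : Finite M := by
    have : Module.IsTorsionFree R (M → K) := isTorsionFree_fun (F := F)
    have : Module.IsTorsionFree R H :=
      Function.Injective.moduleIsTorsionFree (fun h : H => (h : M → K)) Subtype.val_injective
        (fun _ _ => rfl)
    have : Module.Free R H := Module.free_of_finite_type_torsion_free'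
    refine finite_of_separates (K := K) H.val (Module.Free.chooseBasis R H) ?_
    intro m m' hmm
    obtain ⟨h, hh, hne⟩ := hsep m m' hmm
    exact ⟨⟨h, hh⟩, hne⟩
  exact exists_hopfAlgebra_of_functionOrder hfix H hequiv hsep hmul hone
    (fun h hh => comp_neg_mem H hone hmul hh)

end Derived

end Fermat.Agent.S19.Shell64
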